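import Mathlib

/-
Hilbert 90 and Kummer theory (existence part) by Poincare series / Lagrange resolvents,
elementwise (no intermediate fields): a group `G` acts on a field `Ω`; `z : G → Ω` is a
multiplicative crossed homomorphism with nonzero values, trivial on a subgroup `U` of finite
index which is the pointwise stabiliser of the image of a monoid `F`.  Then there is `γ ≠ 0`
in `Ω` with `g • γ = z g * γ` for all `g`.
-/

set_option autoImplicit false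
set_option linter.unusedSectionVars false
set_option linter.style.haveILetI false

namespace Fermat.Agent.Lib.LocalKummer

section powZMod

variable {Ω : Type*} [Field Ω] {ℓ : ℕ} [NeZero ℓ]

/-- `ζ ^ a` for `a : ZMod ℓ`. -/
noncomputable def zpowZ (ζ : Ω) (a : ZMod ℓ) : Ω := ζ ^ a.val

lemma zpowZ_add {ζ : Ω} (hζ : ζ ^ ℓ = 1) (a b : ZMod ℓ) :
    zpowZ ζ (a + b) = zpowZ ζ a * zpowZ ζ b := by
  unfold zpowZ
  rw [ZMod.val_add, ← pow_add, ← pow_eq_pow_mod _ hζ]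

lemma zpowZ_zero (ζ : Ω) : zpowZ ζ (0 : ZMod ℓ) = 1 := by
  unfold zpowZ
  rw [ZMod.val_zero, pow_zero]

lemma zpowZ_ne_zero {ζ : Ω} (hζ : ζ ^ ℓ = 1) (a : ZMod ℓ) : zpowZ ζ a ≠ 0 := by
  have h0 : ζ ≠ 0 := by
    rintro rfl
    rw [zero_pow (NeZero.ne ℓ)] at hζ
    exact zero_ne_one hζ
  exact pow_ne_zero _ h0

lemma zpowZ_natCast {ζ : Ω} (hζ : ζ ^ ℓ = 1) (n : ℕ) : zpowZ ζ (n : ZMod ℓ) = ζ ^ n := by
  unfold zpowZ
  rw [ZMod.val_natCast, ← pow_eq_pow_mod _ hζ]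

lemma zpowZ_pow (ζ : Ω) (hζ : ζ ^ ℓ = 1) (a : ZMod ℓ) : zpowZ ζ a ^ ℓ = 1 := by
  unfold zpowZ
  rw [← pow_mul, mul_comm, pow_mul, hζ, one_pow]

lemma zpowZ_mul {ζ : Ω} (hζ : ζ ^ ℓ = 1) (a b : ZMod ℓ) :
    zpowZ ζ (a * b) = zpowZ ζ a ^ b.val := by
  unfold zpowZ
  rw [ZMod.val_mul, ← pow_mul, ← pow_eq_pow_mod _ hζ]

lemma zpowZ_eq_one_iff {ζ : Ω} (hζ : IsPrimitiveRoot ζ ℓ) (a : ZMod ℓ) :
    zpowZ ζ a = 1 ↔ a = 0 := by
  constructor
  · intro h
    unfold zpowZ at h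
    have h1 := (hζ.pow_eq_one_iff_dvd _).1 h
    have h2 : a.val = 0 := Nat.eq_zero_of_dvd_of_lt h1 (ZMod.val_lt a)
    exact (ZMod.val_eq_zero a).1 h2
  · rintro rfl
    exact zpowZ_zero ζ

lemma zpowZ_injective {ζ : Ω} (hζ : IsPrimitiveRoot ζ ℓ) :
    Function.Injective (zpowZ ζ : ZMod ℓ → Ω) := by
  intro a b h
  have h1 : zpowZ ζ (a - b) = 1 := by
    have h2 : zpowZ ζ (a - b) * zpowZ ζ b = zpowZ ζ a := by
      rw [← zpowZ_add hζ.pow_eq_one, sub_add_cancel]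
    rw [h] at h2
    exact mul_right_cancel₀ (zpowZ_ne_zero hζ.pow_eq_one b) (h2.trans (one_mul _).symm)
  exact sub_eq_zero.1 ((zpowZ_eq_one_iff hζ _).1 h1)

lemma zpowZ_zpow {ζ : Ω} (hζ : ζ ^ ℓ = 1) (a : ZMod ℓ) (i : ℤ) :
    zpowZ ζ a ^ i = zpowZ ζ (a * (i : ZMod ℓ)) := by
  rw [zpowZ_mul hζ]
  have h1 : (zpowZ ζ a) ^ (ℓ : ℤ) = 1 := by
    rw [zpow_natCast]
    exact zpowZ_pow ζ hζ a
  have h0 : zpowZ ζ a ≠ 0 := zpowZ_ne_zero hζ a
  have h2 : i = (ℓ : ℤ) * (i / ℓ) + i % ℓ := (Int.mul_ediv_add_emod i ℓ).symm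
  have h3 : zpowZ ζ a ^ i = zpowZ ζ a ^ (i % ℓ) := by
    conv_lhs => rw [h2]
    rw [zpow_add₀ h0, zpow_mul, h1, one_zpow, one_mul]
  rw [h3, ← ZMod.val_intCast, zpow_natCast]

lemma smul_zpowZ {G : Type*} [Monoid G] [MulSemiringAction G Ω] (g : G) (ζ : Ω) (a : ZMod ℓ) :
    g • zpowZ ζ a = zpowZ (g • ζ) a := by
  unfold zpowZ
  rw [smul_pow']

lemma zpowZ_zpowZ {ζ : Ω} (hζ : ζ ^ ℓ = 1) (a b : ZMod ℓ) :
    zpowZ (zpowZ ζ a) b = zpowZ ζ (a * b) := by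
  rw [zpowZ_mul hζ]
  rfl

/-- Every `ℓ`-th root of unity is `ζ ^ a`. -/
lemma exists_zpowZ_eq {ζ : Ω} (hζ : IsPrimitiveRoot ζ ℓ) {x : Ω} (hx : x ^ ℓ = 1) :
    ∃ a : ZMod ℓ, zpowZ ζ a = x := by
  obtain ⟨i, _, hi⟩ := hζ.eq_pow_of_pow_eq_one hx
  exact ⟨(i : ZMod ℓ), by rw [zpowZ_natCast hζ.pow_eq_one, hi]⟩

end powZMod

section hilbert90

variable {G Ω F : Type*} [Group G] [Field Ω] [MulSemiringAction G Ω] [Monoid F]

/-- **Hilbert 90** (Poincare series), for crossed homomorphisms trivial on a subgroup of finite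
index which is a pointwise stabiliser. -/
theorem exists_hilbert90 (z : G → Ω) (hz : ∀ g h, z (g * h) = z g * g • z h)
    (hz0 : ∀ g, z g ≠ 0)
    (U : Subgroup G) [Finite (G ⧸ U)] (hU : ∀ u ∈ U, z u = 1)
    (ι : F →* Ω) (hstab : ∀ g : G, (∀ x : F, g • ι x = ι x) → g ∈ U)
    (hstab' : ∀ u ∈ U, ∀ x : F, u • ι x = ι x) :
    ∃ γ : Ω, γ ≠ 0 ∧ ∀ g : G, g • γ = z g * γ := by
  classical
  haveI : Fintype (G ⧸ U) := Fintype.ofFinite _
  -- the monoid homs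
  let f : G → (F →* Ω) := fun g =>
    { toFun := fun x => g • ι x
      map_one' := by rw [map_one, smul_one]
      map_mul' := fun x y => by rw [map_mul, smul_mul'] }
  let v : G ⧸ U → (F → Ω) := fun x => (f x.out : F → Ω)
  have hinj : Function.Injective (fun x : G ⧸ U => f x.out) := by
    intro x y hxy
    have h1 : ∀ w : F, x.out • ι w = y.out • ι w := fun w => congrArg (fun φ : F →* Ω => φ w) hxy
    have h2 : x.out⁻¹ * y.out ∈ U := by
      apply hstab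
      intro w
      rw [mul_smul, ← h1 w, inv_smul_smul]
    have h3 : ((x.out : G) : G ⧸ U) = ((y.out : G) : G ⧸ U) := QuotientGroup.eq.2 h2
    rwa [QuotientGroup.out_eq', QuotientGroup.out_eq'] at h3
  have hli : LinearIndependent Ω v :=
    (linearIndependent_monoidHom F Ω).comp (fun x : G ⧸ U => f x.out) hinj
  let a : G ⧸ U → Ω := fun x => z x.out
  have hne : ∑ x, a x • v x ≠ 0 := by
    intro h0
    have h1 := (Fintype.linearIndependent_iff.1 hli) a h0 ((1 : G) : G ⧸ U)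
    exact hz0 _ h1
  obtain ⟨y, hy⟩ : ∃ y : F, (∑ x, a x • v x) y ≠ 0 := by
    by_contra hcon
    apply hne
    funext y
    by_contra hy
    exact hcon ⟨y, hy⟩
  have hval : (∑ x, a x • v x) y = ∑ x : G ⧸ U, a x * (x.out • ι y) := by
    rw [Finset.sum_apply]
    rfl
  rw [hval] at hy
  have hmain : ∀ g : G, z g * g • (∑ x : G ⧸ U, a x * (x.out • ι y)) =
      ∑ x : G ⧸ U, a x * (x.out • ι y) := by
    intro g
    -- key coset computation
    have hkey : ∀ x : G ⧸ U, ∃ u ∈ U, g * x.out = (g • x).out * u := by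
      intro x
      refine ⟨((g • x).out)⁻¹ * (g * x.out), ?_, by rw [mul_inv_cancel_left]⟩
      apply QuotientGroup.eq.1
      rw [QuotientGroup.out_eq']
      have h1 : (g • x : G ⧸ U) = g • ((x.out : G) : G ⧸ U) := by rw [QuotientGroup.out_eq']
      rw [h1]
      rfl
    have hterm : ∀ x : G ⧸ U, z g * g • (a x * (x.out • ι y)) =
        a (g • x) * ((g • x).out • ι y) := by
      intro x
      obtain ⟨u, hu, hgu⟩ := hkey x
      have h2 : g • (x.out • ι y) = (g • x).out • ι y := by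
        rw [← mul_smul, hgu, mul_smul, hstab' u hu]
      have h3 : z g * g • a x = a (g • x) := by
        show z g * g • z x.out = z (g • x).out
        rw [← hz, hgu, hz, hU u hu, smul_one, mul_one]
      rw [smul_mul', h2, ← mul_assoc, h3]
    rw [Finset.smul_sum, Finset.mul_sum]
    simp_rw [hterm]
    exact Equiv.sum_comp (MulAction.toPerm g : G ⧸ U ≃ G ⧸ U)
      (fun x => a x * (x.out • ι y))
  refine ⟨(∑ x : G ⧸ U, a x * (x.out • ι y))⁻¹, inv_ne_zero hy, fun g => ?_⟩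
  have h1 := hmain g
  have h2 : g • (∑ x : G ⧸ U, a x * (x.out • ι y)) ≠ 0 := by
    intro h0
    rw [h0, mul_zero] at h1
    exact hy h1.symm
  rw [smul_inv'']
  field_simp
  rw [mul_comm]
  exact h1.symm

end hilbert90

section resolvent

variable {G Ω F : Type*} [Group G] [Field Ω] [MulSemiringAction G Ω] [Monoid F]
  {ℓ : ℕ} [NeZero ℓ]

/-- **Lagrange resolvent** (Kummer theory, existence): an additive character trivial on a
pointwise stabiliser of finite index is a Kummer character. -/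
theorem exists_resolvent (ζ : Ω) (hζ : ζ ^ ℓ = 1) (hfix : ∀ g : G, g • ζ = ζ)
    (ψ : G → ZMod ℓ) (hψ : ∀ g h, ψ (g * h) = ψ g + ψ h)
    (U : Subgroup G) [Finite (G ⧸ U)] (hU : ∀ u ∈ U, ψ u = 0)
    (ι : F →* Ω) (hstab : ∀ g : G, (∀ x : F, g • ι x = ι x) → g ∈ U)
    (hstab' : ∀ u ∈ U, ∀ x : F, u • ι x = ι x) :
    ∃ γ : Ω, γ ≠ 0 ∧ ∀ g : G, g • γ = zpowZ ζ (ψ g) * γ := by
  refine exists_hilbert90 (fun g => zpowZ ζ (ψ g)) ?_ (fun g => zpowZ_ne_zero hζ _) U ?_ ι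
    hstab hstab'
  · intro g h
    have h1 : g • zpowZ ζ (ψ h) = zpowZ ζ (ψ h) := by
      unfold zpowZ
      rw [smul_pow', hfix]
    show zpowZ ζ (ψ (g * h)) = zpowZ ζ (ψ g) * g • zpowZ ζ (ψ h)
    rw [h1, hψ, zpowZ_add hζ]
  · intro u hu
    show zpowZ ζ (ψ u) = 1
    rw [hU u hu, zpowZ_zero]

end resolvent

end Fermat.Agent.Lib.LocalKummer
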