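import Mathlib
import Fermat.Agent.Lib.LocalKummer.Resolvent

/-
Root extraction near `1` in an ultrametric algebraically closed normed field, with Galois
invariance: if `‖y - 1‖ < ‖1 - ζ‖ ^ ℓ` (`ζ` a primitive `ℓ`-th root of unity, `ℓ` prime) then `y`
has an `ℓ`-th root `x` with `‖x - 1‖ < ‖1 - ζ‖`, and this root is fixed by every isometric
automorphism fixing `ζ` and `y`.
-/

set_option autoImplicit false
set_option linter.unusedSectionVars false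
set_option linter.style.haveILetI false

namespace Fermat.Agent.Lib.LocalKummer

open Finset

section ultra

variable {Ω : Type*} [NormedField Ω] [IsUltrametricDist Ω]

lemma norm_eq_one_of_pow_eq_one' {ζ : Ω} {n : ℕ} (h : ζ ^ n = 1) (hn : n ≠ 0) : ‖ζ‖ = 1 := by
  have h1 : ‖ζ‖ ^ n = 1 := by rw [← norm_pow, h, norm_one]
  exact (pow_eq_one_iff_of_nonneg (norm_nonneg ζ) hn).1 h1

lemma norm_sub_le_max' (x y : Ω) : ‖x - y‖ ≤ max ‖x‖ ‖y‖ := by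
  rw [sub_eq_add_neg]
  have := IsUltrametricDist.norm_add_le_max x (-y)
  rwa [norm_neg] at this

lemma norm_geom_sum_le {ζ : Ω} (h : ‖ζ‖ = 1) (n : ℕ) : ‖∑ i ∈ range n, ζ ^ i‖ ≤ 1 := by
  apply IsUltrametricDist.norm_sum_le_of_forall_le_of_nonneg zero_le_one
  intro i _
  rw [norm_pow, h, one_pow]

lemma norm_one_sub_pow_le {ζ : Ω} (h : ‖ζ‖ = 1) (j : ℕ) : ‖1 - ζ ^ j‖ ≤ ‖1 - ζ‖ := by
  have h1 : 1 - ζ ^ j = (∑ i ∈ range j, ζ ^ i) * (1 - ζ) := by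
    have := geom_sum_mul ζ j
    linear_combination this
  rw [h1, norm_mul]
  exact mul_le_of_le_one_left (norm_nonneg _) (norm_geom_sum_le h j)

variable {ℓ : ℕ}

lemma norm_one_sub_pow_eq (hℓ : ℓ.Prime) {ζ : Ω} (hζ : IsPrimitiveRoot ζ ℓ) (j : ℕ)
    (hj : ¬ ℓ ∣ j) : ‖1 - ζ ^ j‖ = ‖1 - ζ‖ := by
  haveI : NeZero ℓ := ⟨hℓ.ne_zero⟩
  have h1 : ‖ζ‖ = 1 := norm_eq_one_of_pow_eq_one' hζ.pow_eq_one hℓ.ne_zero
  apply le_antisymm (norm_one_sub_pow_le h1 j)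
  have hcop : j.Coprime ℓ := (Nat.Prime.coprime_iff_not_dvd hℓ).2 hj |>.symm
  have hprim : IsPrimitiveRoot (ζ ^ j) ℓ := hζ.pow_of_coprime j hcop
  obtain ⟨i, _, hi⟩ := hprim.eq_pow_of_pow_eq_one hζ.pow_eq_one
  have h2 : ‖ζ ^ j‖ = 1 := by rw [norm_pow, h1, one_pow]
  have h3 := norm_one_sub_pow_le h2 i
  rwa [hi] at h3

lemma norm_one_sub_le_one {ζ : Ω} (h : ‖ζ‖ = 1) : ‖1 - ζ‖ ≤ 1 := by
  have := norm_sub_le_max' (1 : Ω) ζ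
  rwa [norm_one, h, max_self] at this

lemma norm_one_sub_pow_prime (hℓ : ℓ.Prime) {ζ : Ω} (hζ : IsPrimitiveRoot ζ ℓ) :
    ‖1 - ζ‖ ^ (ℓ - 1) = ‖(ℓ : Ω)‖ := by
  obtain ⟨n, rfl⟩ : ∃ n, ℓ = n + 1 := ⟨ℓ - 1, (Nat.succ_pred_eq_of_pos hℓ.pos).symm⟩
  have h1 := hζ.prod_one_sub_pow_eq_order
  have h2 : ‖∏ k ∈ range n, (1 - ζ ^ (k + 1))‖ = ‖((n + 1 : ℕ) : Ω)‖ := by
    rw [h1]
    push_cast
    rfl
  rw [norm_prod] at h2
  rw [← h2, Nat.add_sub_cancel]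
  have h3 : ∀ k ∈ range n, ‖1 - ζ ^ (k + 1)‖ = ‖1 - ζ‖ := by
    intro k hk
    apply norm_one_sub_pow_eq hℓ hζ
    intro hdvd
    have := Nat.le_of_dvd (Nat.succ_pos k) hdvd
    have := mem_range.1 hk
    omega
  rw [prod_congr rfl h3, prod_const, card_range]

lemma norm_one_sub_pos {ζ : Ω} (hζ : IsPrimitiveRoot ζ ℓ) (hℓ : 1 < ℓ) : 0 < ‖1 - ζ‖ := by
  rw [norm_pos_iff, sub_ne_zero]
  intro h
  exact hζ.ne_one hℓ h.symm

/-- Root selection: an element close to `1` has an `ℓ`-th root close to `1`. -/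
theorem exists_root_near_one [IsAlgClosed Ω] (hℓ : ℓ.Prime) {ζ : Ω} (hζ : IsPrimitiveRoot ζ ℓ)
    {y : Ω} (hy : ‖y - 1‖ < ‖1 - ζ‖ ^ ℓ) : ∃ x : Ω, x ^ ℓ = y ∧ ‖x - 1‖ < ‖1 - ζ‖ := by
  obtain ⟨x₀, hx₀⟩ := IsAlgClosed.exists_pow_nat_eq y hℓ.pos
  have h1 := hζ.pow_sub_pow_eq_prod_sub_mul 1 x₀ hℓ.pos
  rw [one_pow, hx₀] at h1
  by_contra hcon
  have hcon' : ∀ x : Ω, x ^ ℓ = y → ‖1 - ζ‖ ≤ ‖x - 1‖ := by
    intro x hx
    by_contra hlt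
    exact hcon ⟨x, hx, not_le.1 hlt⟩
  have h2 : ‖1 - ζ‖ ^ ℓ ≤ ‖(1 : Ω) - y‖ := by
    rw [h1, norm_prod]
    have h3 : ∏ _ξ ∈ Polynomial.nthRootsFinset ℓ (1 : Ω), ‖1 - ζ‖ ≤
        ∏ ξ ∈ Polynomial.nthRootsFinset ℓ (1 : Ω), ‖1 - ξ * x₀‖ := by
      apply Finset.prod_le_prod (fun _ _ => norm_nonneg _)
      intro ξ hξ
      have hξ' : ξ ^ ℓ = 1 := (Polynomial.mem_nthRootsFinset hℓ.pos 1).1 hξ
      have h4 := hcon' (ξ * x₀) (by rw [mul_pow, hξ', hx₀, one_mul])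
      rwa [norm_sub_rev (ξ * x₀) 1] at h4
    rwa [Finset.prod_const, hζ.card_nthRootsFinset] at h3
  rw [norm_sub_rev 1 y] at h2
  exact absurd hy (not_lt.2 h2)

/-- The root selected by `exists_root_near_one` is fixed by isometric automorphisms. -/
theorem root_near_one_fixed (hℓ : ℓ.Prime) {ζ : Ω} (hζ : IsPrimitiveRoot ζ ℓ)
    (σ : Ω →+* Ω) (hσ : ∀ x, ‖σ x‖ = ‖x‖) {x y : Ω} (hx : x ^ ℓ = y)
    (hσy : σ y = y) (hx1 : ‖x - 1‖ < ‖1 - ζ‖) : σ x = x := by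
  haveI : NeZero ℓ := ⟨hℓ.ne_zero⟩
  have hζ1 : ‖ζ‖ = 1 := norm_eq_one_of_pow_eq_one' hζ.pow_eq_one hℓ.ne_zero
  have hδ : ‖1 - ζ‖ ≤ 1 := norm_one_sub_le_one hζ1
  -- `‖x‖ = 1`
  have hxn : ‖x‖ = 1 := by
    have h1 : ‖x - 1‖ < ‖(1 : Ω)‖ := by rw [norm_one]; exact lt_of_lt_of_le hx1 hδ
    have h2 := IsUltrametricDist.norm_add_eq_max_of_norm_ne_norm (ne_of_lt h1)
    rw [sub_add_cancel, max_eq_right (le_of_lt h1), norm_one] at h2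
    exact h2
  have hx0 : x ≠ 0 := by
    intro h
    rw [h, norm_zero] at hxn
    exact zero_ne_one hxn
  -- `σ x = ζ ^ i * x`
  have h1 : (σ x / x) ^ ℓ = 1 := by
    rw [div_pow, ← map_pow, hx, hσy]
    exact div_self (by rw [← hx]; exact pow_ne_zero _ hx0)
  obtain ⟨i, hi, hix⟩ := hζ.eq_pow_of_pow_eq_one h1
  have h2 : σ x = ζ ^ i * x := by
    rw [hix]
    field_simp
  by_cases hdvd : ℓ ∣ i
  · obtain ⟨m, rfl⟩ := hdvd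
    rw [h2, pow_mul, hζ.pow_eq_one, one_pow, one_mul]
  · exfalso
    have h3 : ‖σ x - 1‖ < ‖1 - ζ‖ := by
      have : σ x - 1 = σ (x - 1) := by rw [map_sub, map_one]
      rw [this, hσ]
      exact hx1
    have h4 : ‖σ x - x‖ < ‖1 - ζ‖ := by
      have h5 : σ x - x = (σ x - 1) - (x - 1) := by ring
      rw [h5]
      exact lt_of_le_of_lt (norm_sub_le_max' _ _) (max_lt h3 hx1)
    have h6 : ‖σ x - x‖ = ‖1 - ζ‖ := by
      have h7 : σ x - x = -((1 - ζ ^ i) * x) := by rw [h2]; ring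
      rw [h7, norm_neg, norm_mul, hxn, mul_one, norm_one_sub_pow_eq hℓ hζ i hdvd]
    rw [h6] at h4
    exact lt_irrefl _ h4

end ultra

end Fermat.Agent.Lib.LocalKummer
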