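import Mathlib
import Fermat.Agent.Lib.LocalKummer.Roots

/-
The group `ℚ_pˣ` modulo `p`-th powers (`p` odd) is generated by `p` and `1 + p`:
every nonzero `a : ℚ_[p]` is `p ^ i * (1 + p) ^ j * b ^ p`.
-/

set_option autoImplicit false
set_option linter.unusedSectionVars false
set_option linter.style.haveILetI false

namespace Fermat.Agent.Lib.LocalKummer

open Finset

section qp

variable (p : ℕ) [Fact p.Prime]

local notation "Ω" => PadicAlgCl p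

lemma norm_algEquiv (σ : Ω ≃ₐ[ℚ_[p]] Ω) (x : Ω) : ‖σ x‖ = ‖x‖ :=
  (spectralNorm_eq_of_equiv σ x).symm

lemma norm_natCast_p : ‖(p : Ω)‖ = (p : ℝ)⁻¹ := by
  have h := PadicAlgCl.norm_extends p (p : ℚ_[p])
  rw [map_natCast, Padic.norm_p] at h
  exact h

lemma exists_primitiveRoot_padicAlgCl (n : ℕ) [NeZero n] : ∃ ζ : Ω, IsPrimitiveRoot ζ n := by
  haveI : NeZero (n : Ω) := ⟨by exact_mod_cast (NeZero.ne n)⟩
  exact HasEnoughRootsOfUnity.exists_primitiveRoot Ω n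

/-- The sharp threshold: `p⁻² < ‖1 - ζ‖ ^ p` for `p` odd. -/
lemma lt_norm_one_sub_zeta_pow (hp2 : p ≠ 2) {ζ : Ω} (hζ : IsPrimitiveRoot ζ p) :
    ((p : ℝ)⁻¹) ^ 2 < ‖1 - ζ‖ ^ p := by
  have hp : p.Prime := Fact.out
  have hp3 : 3 ≤ p := by
    have := hp.two_le
    omega
  have h1 : ‖1 - ζ‖ ^ (p - 1) = (p : ℝ)⁻¹ := by
    rw [norm_one_sub_pow_prime hp hζ, norm_natCast_p]
  have hζ1 : ‖ζ‖ = 1 := norm_eq_one_of_pow_eq_one' hζ.pow_eq_one hp.ne_zero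
  have hle : ‖1 - ζ‖ ≤ 1 := norm_one_sub_le_one hζ1
  have h0 : 0 ≤ ‖1 - ζ‖ := norm_nonneg _
  have hpinv : 0 < (p : ℝ)⁻¹ := by
    have : (0 : ℝ) < p := by exact_mod_cast hp.pos
    positivity
  have hpinv1 : (p : ℝ)⁻¹ < 1 := by
    have : (1 : ℝ) < p := by exact_mod_cast hp.one_lt
    exact inv_lt_one_of_one_lt₀ this
  -- `p⁻¹ < ‖1 - ζ‖`
  have h2 : (p : ℝ)⁻¹ < ‖1 - ζ‖ := by
    by_contra hcon
    have hcon' : ‖1 - ζ‖ ≤ (p : ℝ)⁻¹ := not_lt.1 hcon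
    have h3 : ‖1 - ζ‖ ^ (p - 1) ≤ ((p : ℝ)⁻¹) ^ (p - 1) := pow_le_pow_left₀ h0 hcon' _
    have h4 : ((p : ℝ)⁻¹) ^ (p - 1) ≤ ((p : ℝ)⁻¹) ^ 2 :=
      pow_le_pow_of_le_one hpinv.le hpinv1.le (by omega)
    have h5 : ((p : ℝ)⁻¹) ^ 2 < (p : ℝ)⁻¹ := by
      have : ((p : ℝ)⁻¹) ^ 2 = (p : ℝ)⁻¹ * (p : ℝ)⁻¹ := sq _
      rw [this]
      exact mul_lt_of_lt_one_right hpinv hpinv1
    rw [h1] at h3
    linarith
  have h6 : ‖1 - ζ‖ ^ p = ‖1 - ζ‖ ^ (p - 1) * ‖1 - ζ‖ := by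
    rw [← pow_succ]
    congr 1
    omega
  rw [h6, h1, sq]
  exact mul_lt_mul_of_pos_left h2 hpinv

/-- Elements of `1 + p² ℤ_p` are `p`-th powers (`p` odd). -/
theorem exists_pow_eq_of_norm_sub_one_le (hp2 : p ≠ 2) (y : ℚ_[p])
    (hy : ‖y - 1‖ ≤ ((p : ℝ)⁻¹) ^ 2) : ∃ x : ℚ_[p], x ^ p = y := by
  have hp : p.Prime := Fact.out
  haveI : NeZero p := ⟨hp.ne_zero⟩
  obtain ⟨ζ, hζ⟩ := exists_primitiveRoot_padicAlgCl p p
  have h1 : ‖algebraMap ℚ_[p] Ω y - 1‖ < ‖1 - ζ‖ ^ p := by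
    have : algebraMap ℚ_[p] Ω y - 1 = algebraMap ℚ_[p] Ω (y - 1) := by
      rw [map_sub, map_one]
    rw [this, PadicAlgCl.norm_extends]
    exact lt_of_le_of_lt hy (lt_norm_one_sub_zeta_pow p hp2 hζ)
  obtain ⟨x, hx, hx1⟩ := exists_root_near_one hp hζ h1
  have hfix : ∀ σ : Ω ≃ₐ[ℚ_[p]] Ω, σ x = x := by
    intro σ
    exact root_near_one_fixed hp hζ (σ : Ω →+* Ω) (fun z => norm_algEquiv p σ z) hx
      (σ.commutes y) hx1
  obtain ⟨x', hx'⟩ := (InfiniteGalois.mem_range_algebraMap_iff_fixed x).2 hfix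
  refine ⟨x', ?_⟩
  apply (algebraMap ℚ_[p] Ω).injective
  rw [map_pow, hx', hx]

lemma one_add_pow_expand {R : Type*} [CommRing R] (x : R) (j : ℕ) :
    ∃ c : R, (1 + x) ^ j = 1 + j * x + x ^ 2 * c := by
  induction j with
  | zero => exact ⟨0, by simp⟩
  | succ j ih =>
    obtain ⟨c, hc⟩ := ih
    refine ⟨j + c + c * x, ?_⟩
    rw [pow_succ, hc]
    push_cast
    ring

/-- `ℚ_pˣ` is generated by `p`, `1 + p` and `p`-th powers (`p` odd). -/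
theorem exists_decomp (hp2 : p ≠ 2) (a : ℚ_[p]) (ha : a ≠ 0) :
    ∃ (i j : ℤ) (b : ℚ_[p]), b ≠ 0 ∧ a = (p : ℚ_[p]) ^ i * (1 + (p : ℚ_[p])) ^ j * b ^ p := by
  have hp : p.Prime := Fact.out
  have hp0 : (p : ℚ_[p]) ≠ 0 := by exact_mod_cast hp.ne_zero
  have hpR : (0 : ℝ) < p := by exact_mod_cast hp.pos
  -- the unit part
  set n : ℤ := a.valuation with hn
  set u : ℚ_[p] := a * (p : ℚ_[p]) ^ (-n) with hu
  have hun : ‖u‖ = 1 := by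
    rw [hu, norm_mul, Padic.norm_p_zpow, Padic.norm_eq_zpow_neg_valuation ha, neg_neg,
      ← zpow_add₀ hpR.ne', neg_add_cancel, zpow_zero]
  have hu0 : u ≠ 0 := by
    intro h
    rw [h, norm_zero] at hun
    exact zero_ne_one hun
  have hau : a = (p : ℚ_[p]) ^ n * u := by
    rw [hu, mul_comm a, ← mul_assoc, ← zpow_add₀ hp0, add_neg_cancel, zpow_zero, one_mul]
  let u' : ℤ_[p] := ⟨u, le_of_eq hun⟩
  have hu'unit : IsUnit u' := PadicInt.isUnit_iff.2 hun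
  -- Fermat's little theorem
  have h1 : PadicInt.toZMod (u' ^ (p - 1) - 1) = 0 := by
    rw [map_sub, map_pow, map_one, sub_eq_zero]
    apply ZMod.pow_card_sub_one_eq_one
    intro h0
    have h2 : u' ∈ RingHom.ker (PadicInt.toZMod (p := p)) := h0
    rw [PadicInt.ker_toZMod] at h2
    exact (IsLocalRing.mem_maximalIdeal _).1 h2 hu'unit
  have h2 : u' ^ (p - 1) - 1 ∈ Ideal.span {(p : ℤ_[p])} := by
    rw [← PadicInt.maximalIdeal_eq_span_p, ← PadicInt.ker_toZMod]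
    exact h1
  obtain ⟨t, ht⟩ := Ideal.mem_span_singleton'.1 h2
  have h3 : t - (t.zmodRepr : ℤ_[p]) ∈ Ideal.span {(p : ℤ_[p])} := by
    rw [← PadicInt.maximalIdeal_eq_span_p]
    exact PadicInt.sub_zmodRepr_mem t
  obtain ⟨s, hs⟩ := Ideal.mem_span_singleton'.1 h3
  set j : ℕ := t.zmodRepr with hj
  obtain ⟨c, hc⟩ := one_add_pow_expand (p : ℤ_[p]) j
  -- `w = (1 + p) ^ j` is a unit
  have hw1 : ‖(1 + (p : ℤ_[p]))‖ = 1 := by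
    have h4 : ‖(p : ℤ_[p])‖ < ‖(1 : ℤ_[p])‖ := by
      rw [norm_one, PadicInt.norm_p]
      exact inv_lt_one_of_one_lt₀ (by exact_mod_cast hp.one_lt)
    have h5 := IsUltrametricDist.norm_add_eq_max_of_norm_ne_norm (ne_of_lt h4)
    rw [max_eq_right (le_of_lt h4), norm_one, add_comm] at h5
    exact h5
  have hwunit : IsUnit ((1 + (p : ℤ_[p])) ^ j) := (PadicInt.isUnit_iff.2 hw1).pow j
  obtain ⟨W, hW⟩ := hwunit
  -- `y = v / w` is close to `1`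
  have hv : u' ^ (p - 1) = 1 + (j : ℤ_[p]) * p + (p : ℤ_[p]) ^ 2 * s := by
    have e1 : u' ^ (p - 1) = 1 + t * p := by rw [ht]; ring
    have e2 : t = j + s * p := by rw [hs]; ring
    rw [e1, e2]
    ring
  have hy : u' ^ (p - 1) * (↑W⁻¹ : ℤ_[p]) - 1 = (p : ℤ_[p]) ^ 2 * ((s - c) * (↑W⁻¹ : ℤ_[p])) := by
    have e3 : (1 : ℤ_[p]) = (1 + (p : ℤ_[p])) ^ j * (↑W⁻¹ : ℤ_[p]) := by
      rw [← hW, Units.mul_inv]
    conv_lhs => rw [e3, hv, hc]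
    ring
  have hynorm : ‖((u' ^ (p - 1) * (↑W⁻¹ : ℤ_[p]) : ℤ_[p]) : ℚ_[p]) - 1‖ ≤ ((p : ℝ)⁻¹) ^ 2 := by
    have e4 : ((u' ^ (p - 1) * (↑W⁻¹ : ℤ_[p]) : ℤ_[p]) : ℚ_[p]) - 1 =
        ((u' ^ (p - 1) * (↑W⁻¹ : ℤ_[p]) - 1 : ℤ_[p]) : ℚ_[p]) := by
      push_cast
      rfl
    rw [e4, hy, PadicInt.padic_norm_e_of_padicInt, norm_mul, norm_pow, PadicInt.norm_p]
    exact mul_le_of_le_one_right (by positivity) (PadicInt.norm_le_one _)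
  obtain ⟨x, hx⟩ := exists_pow_eq_of_norm_sub_one_le p hp2 _ hynorm
  have hx0 : x ≠ 0 := by
    intro h
    rw [h, zero_pow hp.ne_zero] at hx
    have h6 : (u' ^ (p - 1) * (↑W⁻¹ : ℤ_[p]) : ℤ_[p]) = 0 :=
      Subtype.ext (by rw [PadicInt.coe_zero]; exact hx.symm)
    have h7 : IsUnit (u' ^ (p - 1) * (↑W⁻¹ : ℤ_[p])) := (hu'unit.pow _).mul W⁻¹.isUnit
    exact h7.ne_zero h6
  -- assemble
  have hWq : ((↑W : ℤ_[p]) : ℚ_[p]) = (1 + (p : ℚ_[p])) ^ j := by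
    rw [hW]
    push_cast
    rfl
  have hWinv : ((↑W⁻¹ : ℤ_[p]) : ℚ_[p]) = ((1 + (p : ℚ_[p])) ^ j)⁻¹ := by
    rw [← hWq]
    have : ((↑W : ℤ_[p]) : ℚ_[p]) * ((↑W⁻¹ : ℤ_[p]) : ℚ_[p]) = 1 := by
      rw [← PadicInt.coe_mul, Units.mul_inv, PadicInt.coe_one]
    exact eq_inv_of_mul_eq_one_right this
  have hx' : x ^ p = u ^ (p - 1) * ((1 + (p : ℚ_[p])) ^ j)⁻¹ := by
    rw [hx]
    push_cast
    rw [hWinv]
  have h1p : (1 + (p : ℚ_[p])) ≠ 0 := by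
    intro h
    have : ((1 + (p : ℤ_[p]) : ℤ_[p]) : ℚ_[p]) = 0 := by push_cast; exact h
    have h8 : (1 + (p : ℤ_[p])) = 0 := Subtype.ext (by rw [PadicInt.coe_zero]; exact this)
    rw [h8, norm_zero] at hw1
    exact zero_ne_one hw1
  refine ⟨n, -(j : ℤ), u / x, div_ne_zero hu0 hx0, ?_⟩
  rw [hau, div_pow, hx', zpow_neg, zpow_natCast]
  have hup : u ^ p = u ^ (p - 1) * u := by
    rw [← pow_succ]
    congr 1
    have := hp.pos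
    omega
  rw [hup]
  have hu1 : u ^ (p - 1) ≠ 0 := pow_ne_zero _ hu0
  have hw0 : (1 + (p : ℚ_[p])) ^ j ≠ 0 := pow_ne_zero _ h1p
  field_simp

end qp

end Fermat.Agent.Lib.LocalKummer
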