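import Mathlib

/-
Abstract finiteness of a set of crossed homomorphisms: if `U` has finite index in `G`, the
coefficient group `M` is finite, and the restrictions to `U` range over a finite set, then the
set is finite.  Also: functions into a finite-dimensional `ZMod ℓ`-space all of whose coordinates
lie in a finite set form a finite set.
-/

set_option autoImplicit false
set_option linter.unusedSectionVars false
set_option linter.style.haveILetI false

namespace Fermat.Agent.Lib.LocalKummer

section abstract

variable {G M : Type*} [Group G] [AddCommGroup M] [Finite M]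

theorem finite_of_restrict_finite (U : Subgroup G) [Finite (G ⧸ U)] (ρ : G → M → M)
    (S : Set (G → M))
    (hcoc : ∀ c ∈ S, ∀ g u : G, u ∈ U → c (g * u) = ρ g (c u) + c g)
    (Y : Set (↥U → M)) (hY : Y.Finite) (hres : ∀ c ∈ S, (fun u : U => c u) ∈ Y) :
    S.Finite := by
  classical
  let Φ : (G → M) → (G ⧸ U → M) × (↥U → M) :=
    fun c => (fun x => c x.out, fun u => c u)
  have hmaps : Set.MapsTo Φ S (Set.univ ×ˢ Y) := by
    intro c hc
    exact ⟨Set.mem_univ _, hres c hc⟩
  have hinj : Set.InjOn Φ S := by
    intro c hc c' hc' h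
    have h1 : ∀ x : G ⧸ U, c x.out = c' x.out := fun x => congrFun (congrArg Prod.fst h) x
    have h2 : ∀ u : U, c u = c' u := fun u => congrFun (congrArg Prod.snd h) u
    funext g
    have hu : ((g : G ⧸ U).out)⁻¹ * g ∈ U := by
      apply QuotientGroup.eq.1
      exact QuotientGroup.out_eq' _
    have hg : g = (g : G ⧸ U).out * (((g : G ⧸ U).out)⁻¹ * g) := by
      rw [mul_inv_cancel_left]
    rw [hg, hcoc c hc _ _ hu, hcoc c' hc' _ _ hu, h1, h2 ⟨_, hu⟩]
  exact Set.Finite.of_injOn hmaps hinj (Set.finite_univ.prod hY)

end abstract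

section coords

variable {V M ι X : Type*} [Finite ι]

/-- Functions all of whose coordinates (with respect to an injective coordinate map) lie in a
finite set form a finite set. -/
theorem finite_of_coords_finite (co : M → ι → X) (hco : Function.Injective co)
    (A : Set (V → X)) (hA : A.Finite) :
    {φ : V → M | ∀ i, (fun v => co (φ v) i) ∈ A}.Finite := by
  classical
  let Ψ : (V → M) → (ι → (V → X)) := fun φ i v => co (φ v) i
  have hΨ : Function.Injective Ψ := by
    intro φ φ' h
    funext v
    apply hco
    funext i
    exact congrFun (congrFun h i) v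
  have h1 : {f : ι → (V → X) | ∀ i, f i ∈ A}.Finite := Set.Finite.pi' (fun _ => hA)
  have h2 := h1.preimage (hΨ.injOn (s := Ψ ⁻¹' {f : ι → (V → X) | ∀ i, f i ∈ A}))
  refine h2.subset ?_
  intro φ hφ
  show Ψ φ ∈ {f : ι → (V → X) | ∀ i, f i ∈ A}
  intro i
  exact hφ i

end coords

end Fermat.Agent.Lib.LocalKummer
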