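import Mathlib
import Fermat.Agent.Lib.LocalKummer.QpUnits

/-
Finiteness of `Eˣ / (Eˣ) ^ ℓ` for a finite extension `E` of `ℚ_q` inside `PadicAlgCl q`, in the
form: there is a finite set `T` such that every nonzero `a ∈ E` is `t * b ^ ℓ` with `t ∈ T` and
`b ≠ 0` fixed by the Galois group of `E`.  (Compactness of the unit ball of `E` + root selection.)
-/

set_option autoImplicit false
set_option linter.unusedSectionVars false
set_option linter.style.haveILetI false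

namespace Fermat.Agent.Lib.LocalKummer

section cover

variable (q : ℕ) [Fact q.Prime]

local notation "Ω" => PadicAlgCl q

lemma isCompact_unitBall (E : IntermediateField ℚ_[q] Ω) [FiniteDimensional ℚ_[q] E] :
    IsCompact {x : Ω | x ∈ E ∧ ‖x‖ ≤ 1} := by
  let S : Submodule ℚ_[q] Ω := E.toSubalgebra.toSubmodule
  haveI : FiniteDimensional ℚ_[q] S := inferInstanceAs (FiniteDimensional ℚ_[q] E)
  haveI : ProperSpace S := FiniteDimensional.proper ℚ_[q] S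
  have h1 : IsCompact (Metric.closedBall (0 : S) 1) := isCompact_closedBall 0 1
  have h2 := h1.image (continuous_subtype_val)
  convert h2 using 1
  ext x
  constructor
  · rintro ⟨hx, hx1⟩
    refine ⟨⟨x, hx⟩, ?_, rfl⟩
    rw [Metric.mem_closedBall, dist_zero_right]
    exact hx1
  · rintro ⟨y, hy, rfl⟩
    rw [Metric.mem_closedBall, dist_zero_right] at hy
    exact ⟨y.2, hy⟩

lemma isCompact_annulus (E : IntermediateField ℚ_[q] Ω) [FiniteDimensional ℚ_[q] E] (c : ℝ) :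
    IsCompact {x : Ω | x ∈ E ∧ c ≤ ‖x‖ ∧ ‖x‖ ≤ 1} := by
  have h1 := (isCompact_unitBall q E).inter_right
    (isClosed_le continuous_const continuous_norm : IsClosed {x : Ω | c ≤ ‖x‖})
  convert h1 using 1
  ext x
  constructor
  · rintro ⟨hx, hc, h1⟩
    exact ⟨⟨hx, h1⟩, hc⟩
  · rintro ⟨⟨hx, h1⟩, hc⟩
    exact ⟨hx, hc, h1⟩

lemma natCast_q_mem (E : IntermediateField ℚ_[q] Ω) : (q : Ω) ∈ E := by
  have : (q : Ω) = algebraMap ℚ_[q] Ω (q : ℚ_[q]) := (map_natCast _ q).symm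
  rw [this]
  exact E.algebraMap_mem _

/-- Scaling into the annulus by a power of `q ^ m`. -/
lemma exists_zpow_scale (m : ℕ) (hm : m ≠ 0) {a : Ω} (ha : a ≠ 0) :
    ∃ n : ℤ, ‖(q : Ω)‖ ^ m ≤ ‖a * ((q : Ω) ^ m) ^ n‖ ∧ ‖a * ((q : Ω) ^ m) ^ n‖ ≤ 1 := by
  have hq : q.Prime := Fact.out
  have hqn : ‖(q : Ω)‖ = (q : ℝ)⁻¹ := norm_natCast_p q
  have hqR : (1 : ℝ) < q := by exact_mod_cast hq.one_lt
  have hb : (1 : ℝ) < (q : ℝ) ^ m := one_lt_pow₀ hqR hm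
  have ha' : 0 < ‖a‖ := norm_pos_iff.2 ha
  obtain ⟨n, hn1, hn2⟩ := exists_mem_Ioc_zpow ha' hb
  refine ⟨n + 1, ?_, ?_⟩
  · rw [norm_mul, norm_zpow, norm_pow, hqn, inv_pow, inv_zpow, ← zpow_neg]
    have h0 : (0 : ℝ) < (q : ℝ) ^ m := by positivity
    rw [neg_add, zpow_add₀ h0.ne', zpow_neg_one, ← mul_assoc]
    have h1 : 1 ≤ ‖a‖ * ((q : ℝ) ^ m) ^ (-n) := by
      rw [zpow_neg, ← div_eq_mul_inv, le_div_iff₀ (zpow_pos h0 n), one_mul]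
      exact hn1.le
    calc ((q : ℝ) ^ m)⁻¹ = 1 * ((q : ℝ) ^ m)⁻¹ := (one_mul _).symm
      _ ≤ ‖a‖ * ((q : ℝ) ^ m) ^ (-n) * ((q : ℝ) ^ m)⁻¹ :=
        mul_le_mul_of_nonneg_right h1 (by positivity)
  · rw [norm_mul, norm_zpow, norm_pow, hqn, inv_pow, inv_zpow, ← div_eq_mul_inv]
    have h0 : (0 : ℝ) < (q : ℝ) ^ m := by positivity
    rw [div_le_one (zpow_pos h0 _)]
    exact hn2

/-- **Finiteness of `Eˣ` modulo `ℓ`-th powers.** -/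
theorem exists_finite_reps (ℓ : ℕ) (hℓ : ℓ.Prime) (E : IntermediateField ℚ_[q] Ω)
    [FiniteDimensional ℚ_[q] E] :
    ∃ T : Set Ω, T.Finite ∧ ∀ a ∈ E, a ≠ 0 → ∃ t ∈ T, ∃ b : Ω, b ≠ 0 ∧
      (∀ σ ∈ E.fixingSubgroup, σ b = b) ∧ a = t * b ^ ℓ := by
  have hq : q.Prime := Fact.out
  haveI : NeZero ℓ := ⟨hℓ.ne_zero⟩
  obtain ⟨ζ, hζ⟩ := exists_primitiveRoot_padicAlgCl q ℓ
  have hε₀ : 0 < ‖1 - ζ‖ ^ ℓ := pow_pos (norm_one_sub_pos hζ hℓ.one_lt) _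
  have hq0 : (q : Ω) ≠ 0 := by exact_mod_cast hq.ne_zero
  have hc : 0 < ‖(q : Ω)‖ ^ ℓ := pow_pos (norm_pos_iff.2 hq0) _
  obtain ⟨T, hTA, hTfin, hcov⟩ := finite_cover_balls_of_compact
    (isCompact_annulus q E (‖(q : Ω)‖ ^ ℓ)) (mul_pos hc hε₀)
  refine ⟨T, hTfin, fun a haE ha0 => ?_⟩
  obtain ⟨n, hn1, hn2⟩ := exists_zpow_scale q ℓ hℓ.ne_zero ha0
  set a' : Ω := a * ((q : Ω) ^ ℓ) ^ n with ha'
  have hqE : ((q : Ω) ^ ℓ) ^ n ∈ E := zpow_mem (pow_mem (natCast_q_mem q E) ℓ) n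
  have ha'E : a' ∈ E := mul_mem haE hqE
  have ha'A : a' ∈ {x : Ω | x ∈ E ∧ ‖(q : Ω)‖ ^ ℓ ≤ ‖x‖ ∧ ‖x‖ ≤ 1} := ⟨ha'E, hn1, hn2⟩
  obtain ⟨t, htT, hat⟩ := Set.mem_iUnion₂.1 (hcov ha'A)
  have htA := hTA htT
  have htE : t ∈ E := htA.1
  have htn : ‖(q : Ω)‖ ^ ℓ ≤ ‖t‖ := htA.2.1
  have ht0 : t ≠ 0 := norm_pos_iff.1 (lt_of_lt_of_le hc htn)
  rw [Metric.mem_ball, dist_eq_norm] at hat
  set y : Ω := a' / t with hy
  have hyE : y ∈ E := div_mem ha'E htE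
  have hy1 : ‖y - 1‖ < ‖1 - ζ‖ ^ ℓ := by
    have e1 : y - 1 = (a' - t) / t := by
      rw [hy]
      field_simp
    rw [e1, norm_div, div_lt_iff₀ (norm_pos_iff.2 ht0)]
    calc ‖a' - t‖ < ‖(q : Ω)‖ ^ ℓ * ‖1 - ζ‖ ^ ℓ := hat
      _ = ‖1 - ζ‖ ^ ℓ * ‖(q : Ω)‖ ^ ℓ := mul_comm _ _
      _ ≤ ‖1 - ζ‖ ^ ℓ * ‖t‖ := mul_le_mul_of_nonneg_left htn hε₀.le
  obtain ⟨x, hx, hx1⟩ := exists_root_near_one hℓ hζ hy1
  have hx0 : x ≠ 0 := by
    intro h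
    rw [h, zero_pow hℓ.ne_zero] at hx
    have : a' = 0 := by
      have h2 : a' = y * t := by rw [hy]; field_simp
      rw [h2, ← hx, zero_mul]
    have h3 : ‖a'‖ = 0 := by rw [this, norm_zero]
    rw [h3] at hn1
    exact absurd hn1 (not_le.2 hc)
  refine ⟨t, htT, x * ((q : Ω) ^ n)⁻¹, mul_ne_zero hx0 (inv_ne_zero (zpow_ne_zero _ hq0)), ?_, ?_⟩
  · intro σ hσ
    have hσy : σ y = y := (IntermediateField.mem_fixingSubgroup_iff _ _).1 hσ y hyE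
    have hσx : σ x = x :=
      root_near_one_fixed hℓ hζ (σ : Ω →+* Ω) (fun z => norm_algEquiv q σ z) hx hσy hx1
    rw [map_mul, hσx, map_inv₀, map_zpow₀, map_natCast]
  · have h2 : a' = t * x ^ ℓ := by
      rw [hx, hy]
      field_simp
    have h3 : a = a' * (((q : Ω) ^ ℓ) ^ n)⁻¹ := by
      rw [ha', mul_assoc, mul_inv_cancel₀ (zpow_ne_zero _ (pow_ne_zero _ hq0)), mul_one]
    rw [h3, h2, mul_pow, inv_pow, ← zpow_natCast ((q : Ω) ^ n), ← zpow_mul, mul_comm n,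
      zpow_mul, zpow_natCast]
    ring

end cover

end Fermat.Agent.Lib.LocalKummer
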