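import Mathlib
import Fermat.Agent.Lib.LocalKummer.Resolvent

/-
Kummer theory, injectivity part, in counting form: if the fixed elements of `Ω` are represented
modulo `ℓ`-th powers of fixed elements by a finite set `T`, then there are only finitely many
Kummer characters `G → ZMod ℓ`.
-/

set_option autoImplicit false
set_option linter.unusedSectionVars false
set_option linter.style.haveILetI false

namespace Fermat.Agent.Lib.LocalKummer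

section finite

variable {G Ω : Type*} [Group G] [Field Ω] [MulSemiringAction G Ω] {ℓ : ℕ} [NeZero ℓ]

/-- `ψ` is the Kummer character of some nonzero `γ`. -/
def IsKummerChar (ζ : Ω) (ψ : G → ZMod ℓ) : Prop :=
  ∃ γ : Ω, γ ≠ 0 ∧ ∀ g : G, g • γ = zpowZ ζ (ψ g) * γ

theorem finite_kummerChar {ζ : Ω} (hζ : IsPrimitiveRoot ζ ℓ) (hfix : ∀ g : G, g • ζ = ζ)
    (T : Set Ω) (hT : T.Finite)
    (hrep : ∀ a : Ω, a ≠ 0 → (∀ g : G, g • a = a) → ∃ t ∈ T, ∃ b : Ω, b ≠ 0 ∧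
      (∀ g : G, g • b = b) ∧ a = t * b ^ ℓ) :
    {ψ : G → ZMod ℓ | IsKummerChar ζ ψ}.Finite := by
  classical
  have key : ∀ ψ : G → ZMod ℓ, IsKummerChar ζ ψ → ∃ t ∈ T, ∃ γ b : Ω, γ ≠ 0 ∧ b ≠ 0 ∧
      (∀ g : G, g • γ = zpowZ ζ (ψ g) * γ) ∧ (∀ g : G, g • b = b) ∧ γ ^ ℓ = t * b ^ ℓ := by
    rintro ψ ⟨γ, hγ0, hγ⟩
    have h1 : ∀ g : G, g • (γ ^ ℓ) = γ ^ ℓ := by
      intro g
      rw [smul_pow', hγ g, mul_pow, zpowZ_pow ζ hζ.pow_eq_one, one_mul]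
    obtain ⟨t, ht, b, hb0, hb, hab⟩ := hrep (γ ^ ℓ) (pow_ne_zero _ hγ0) h1
    exact ⟨t, ht, γ, b, hγ0, hb0, hγ, hb, hab⟩
  let f : (G → ZMod ℓ) → Ω := fun ψ =>
    if h : IsKummerChar ζ ψ then Classical.choose (key ψ h) else 0
  have hf : ∀ ψ (h : IsKummerChar ζ ψ), f ψ ∈ T ∧ ∃ γ b : Ω, γ ≠ 0 ∧ b ≠ 0 ∧
      (∀ g : G, g • γ = zpowZ ζ (ψ g) * γ) ∧ (∀ g : G, g • b = b) ∧ γ ^ ℓ = f ψ * b ^ ℓ := by
    intro ψ h
    have := Classical.choose_spec (key ψ h)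
    simp only [f, dif_pos h]
    exact this
  refine Set.Finite.of_injOn (f := f) (t := T) (fun ψ hψ => (hf ψ hψ).1) ?_ hT
  intro ψ hψ ψ' hψ' hff
  obtain ⟨-, γ, b, hγ0, hb0, hγ, hb, hab⟩ := hf ψ hψ
  obtain ⟨-, γ', b', hγ'0, hb'0, hγ', hb', hab'⟩ := hf ψ' hψ'
  rw [← hff] at hab'
  -- `(γ b' / (γ' b)) ^ ℓ = 1`
  have h1 : (γ * b' / (γ' * b)) ^ ℓ = 1 := by
    rw [div_pow, mul_pow, mul_pow, hab, hab']
    have hfψ : f ψ ≠ 0 := by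
      intro h0
      rw [h0, zero_mul] at hab
      exact pow_ne_zero _ hγ0 hab
    have hbℓ : b ^ ℓ ≠ 0 := pow_ne_zero _ hb0
    have hb'ℓ : b' ^ ℓ ≠ 0 := pow_ne_zero _ hb'0
    field_simp
  obtain ⟨e, he⟩ := exists_zpowZ_eq hζ h1
  have h2 : γ * b' = zpowZ ζ e * (γ' * b) := by
    rw [he]
    have : γ' * b ≠ 0 := mul_ne_zero hγ'0 hb0
    field_simp
  funext g
  have h3 := congrArg (fun z => g • z) h2
  simp only [smul_mul', hγ g, hb' g, hγ' g, hb g, smul_zpowZ, hfix g] at h3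
  have h4 : zpowZ ζ (ψ g) * (γ * b') = zpowZ ζ (ψ' g) * (γ * b') := by
    linear_combination h3 - zpowZ ζ (ψ' g) * h2
  exact zpowZ_injective hζ (mul_right_cancel₀ (mul_ne_zero hγ0 hb'0) h4)

end finite

end Fermat.Agent.Lib.LocalKummer
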